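import Fermat.Agent.S15.Mod.Ev.Main
import Fermat.Agent.S17.DIV.Defs

/-! # S15-MOD-EV, file `Val`: the place attached to `τ`, in terms of `S17.FF.val`. -/

set_option autoImplicit false

noncomputable section

namespace Fermat.Agent.S15.Mod.Ev

open AlgebraicCurve ModularCurve UpperHalfPlane Fermat.Agent.GR Fermat.Agent.GR.A
  Fermat.Agent.S24 Fermat.Agent.S17.FF Fermat.Agent.S17.DIV

/-- **MOD-EV, `val` form.**  For `τ` with `j(τ) = ι a₀` there is a place `x` of `FF K N` at which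
every `f` whose analytic avatar is a holomorphic function `h` on `ℍ` is regular, with
`ι (val x f) = h τ` as soon as `h τ` is in the image of `ι`. -/
theorem exists_place_val {K : Type} [Field K] [IsAlgClosed K] [CharZero K] (ι : K →+* ℂ) (N : ℕ)
    [NeZero N] (τ : ℍ) (a₀ : K) (ha₀ : S24.jfun τ = ι a₀) :
    ∃ x : Place K (FF K N),
      0 ≤ x.ord (GR.A.jF K N) ∧ val x (GR.A.jF K N) = a₀ ∧
      (∀ (f : FF K N) (h : Hol), evF ι N f = holMer h → 0 ≤ x.ord f) ∧
      (∀ (f : FF K N) (h : Hol) (c : K), evF ι N f = holMer h → (h : ℍ → ℂ) τ = ι c →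
        val x f = c) ∧
      (∀ (f : FF K N) (h : Hol), evF ι N f = holMer h → (h : ℍ → ℂ) τ ≠ 0 → x.ord f = 0) := by
  obtain ⟨x, h1, h2, h3⟩ := exists_place ι N τ a₀ ha₀
  have key : ∀ (f : FF K N) (h : Hol) (c : K), evF ι N f = holMer h → (h : ℍ → ℂ) τ = ι c →
      val x f = c := by
    intro f h c hf hc
    rw [val_eq_iff x (h1 f h hf) c]
    by_cases hne : f = algebraMap K (FF K N) c
    · exact Or.inl hne
    · exact Or.inr (h2 f h c hf hc hne)
  exact ⟨x, h1 _ _ (GR.A.evF_jF ι N), key _ _ a₀ (GR.A.evF_jF ι N) ha₀, h1, key, h3⟩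

end Fermat.Agent.S15.Mod.Ev
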