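import Fermat.Agent.GR.A.EvF
import Fermat.Agent.GR.A.Val
import Fermat.Agent.GR.C.Place1
import Fermat.Agent.S24.LevelOne

/-!
# S15-MOD-EV : the place of `FF K N` attached to a point `τ` of the upper half plane

`K` a field with an embedding `ι : K →+* ℂ`, `τ ∈ ℍ` with `j(τ) ∈ ι(K)`.  Then there is a place `x`
of `FF K N` such that every `f ∈ FF K N` whose analytic realisation `evF ι N f` is a holomorphic
function `h` is regular at `x`, and `f - c` vanishes at `x` as soon as `h τ = ι c`.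
-/

set_option autoImplicit false

namespace Fermat.Agent.S15.Mod.Ev

open ModularCurve AlgebraicCurve UpperHalfPlane
open Fermat.Agent.GR (FF)
open Fermat.Agent.GR.A (evF holMer taylorMer Mer constMer)
open Fermat.Agent.S24 (Hol constHol taylorHom jHol)

noncomputable section

/-- **(VAL)** over a subfield of `ℂ` (same proof as `GR.A.exists_place_mul_ord`). -/
theorem exists_place_mul_ord {K F : Type*} [Field K] [Field F] [Algebra K F] (ι : K →+* ℂ)
    (Φ : F →+* LaurentSeries ℂ)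
    (hΦ : ∀ c : K, Φ (algebraMap K F c) = HahnSeries.C (ι c)) (x : F) (hx : (Φ x).order ≠ 0) :
    ∃ (v : Place K F) (k : ℕ), 0 < k ∧ ∀ f : F, (Φ f).order = k * v.ord f := by
  classical
  have hmul : ∀ {f g : F}, f ≠ 0 → g ≠ 0 → (Φ (f * g)).order = (Φ f).order + (Φ g).order := by
    intro f g hf hg
    rw [map_mul]
    exact HahnSeries.order_mul ((map_ne_zero Φ).2 hf) ((map_ne_zero Φ).2 hg)
  have hinv : ∀ f : F, f ≠ 0 → (Φ f⁻¹).order = -(Φ f).order := by
    intro f hf
    have := hmul hf (inv_ne_zero hf)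
    rw [mul_inv_cancel₀ hf, map_one, HahnSeries.order_one] at this
    omega
  let S : AddSubgroup ℤ :=
    { carrier := {m | ∃ f : F, f ≠ 0 ∧ (Φ f).order = m}
      zero_mem' := ⟨1, one_ne_zero, by simp⟩
      add_mem' := by
        rintro a b ⟨f, hf, rfl⟩ ⟨g, hg, rfl⟩
        exact ⟨f * g, mul_ne_zero hf hg, hmul hf hg⟩
      neg_mem' := by
        rintro a ⟨f, hf, rfl⟩
        exact ⟨f⁻¹, inv_ne_zero hf, hinv f hf⟩ }
  obtain ⟨a, ha⟩ := Int.subgroup_cyclic S
  have hx0 : x ≠ 0 := by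
    rintro rfl
    simp at hx
  have hmem : ∀ f : F, f ≠ 0 → a ∣ (Φ f).order := by
    intro f hf
    have h1 : (Φ f).order ∈ S := ⟨f, hf, rfl⟩
    rw [ha, AddSubgroup.mem_closure_singleton] at h1
    obtain ⟨m, hm⟩ := h1
    exact ⟨m, by rw [← hm, smul_eq_mul, mul_comm]⟩
  have ha0 : a ≠ 0 := by
    rintro rfl
    exact hx (zero_dvd_iff.mp (hmem x hx0))
  have haS : a ∈ S := by
    rw [ha]
    exact AddSubgroup.mem_closure_singleton_self a
  obtain ⟨t, ht0, ht⟩ : ∃ t : F, t ≠ 0 ∧ (Φ t).order = (a.natAbs : ℤ) := by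
    obtain ⟨t, ht0, ht⟩ := haS
    rcases Int.natAbs_eq a with h | h
    · exact ⟨t, ht0, by rw [ht]; exact h⟩
    · exact ⟨t⁻¹, inv_ne_zero ht0, by rw [hinv t ht0, ht]; omega⟩
  set k : ℕ := a.natAbs with hk
  have hk0 : 0 < k := Int.natAbs_pos.mpr ha0
  have hkz : (k : ℤ) ≠ 0 := by exact_mod_cast hk0.ne'
  have hdvd : ∀ f : F, f ≠ 0 → (k : ℤ) ∣ (Φ f).order := fun f hf =>
    Int.natAbs_dvd.mpr (hmem f hf)
  obtain ⟨v, -, hv⟩ := GR.C.Place1_core (K := K) (GR.C.Place1_sub Φ)
    (fun f => (Φ f).order / k) (by simp)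
    (fun {f g} hf hg => by
      rw [hmul hf hg, Int.add_ediv_of_dvd_left (hdvd f hf)])
    (fun f hf => by
      rw [GR.C.Place1_mem_sub]
      obtain ⟨m, hm⟩ := hdvd f hf
      rw [hm, Int.mul_ediv_cancel_left _ hkz]
      constructor
      · intro h
        by_contra hneg
        push Not at hneg
        have : (k : ℤ) * m < 0 := mul_neg_of_pos_of_neg (by exact_mod_cast hk0) hneg
        omega
      · intro h
        positivity)
    (fun c => by rw [GR.C.Place1_mem_sub, hΦ, HahnSeries.order_C]) t ht0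
    (by rw [ht, Int.ediv_self hkz])
  refine ⟨v, k, hk0, fun f => ?_⟩
  rcases eq_or_ne f 0 with rfl | hf
  · simp
  · rw [hv f hf, Int.mul_ediv_cancel' (hdvd f hf)]

variable {K : Type} [Field K] (ι : K →+* ℂ) (N : ℕ)

/-- Laurent expansion at `τ` of the elements of the function field. -/
def tayF (τ : ℍ) : FF K N →+* LaurentSeries ℂ := (taylorMer τ).comp (evF ι N)

theorem tayF_of_hol (τ : ℍ) {f : FF K N} {h : Hol} (hf : evF ι N f = holMer h) :
    tayF ι N τ f = HahnSeries.ofPowerSeries ℤ ℂ (taylorHom τ h) := by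
  rw [tayF, RingHom.comp_apply, hf, GR.A.taylorMer_holMer]

theorem tayF_algebraMap (τ : ℍ) (c : K) :
    tayF ι N τ (algebraMap K (FF K N) c) = HahnSeries.C (ι c) := by
  have h1 : evF ι N (algebraMap K (FF K N) c) = holMer (constHol (ι c)) :=
    GR.A.evF_algebraMap ι N c
  rw [tayF_of_hol ι N τ h1, S24.taylorHom_constHol]
  simp

theorem constantCoeff_taylorHom (τ : ℍ) (h : Hol) :
    PowerSeries.constantCoeff (taylorHom τ h) = (h : ℍ → ℂ) τ := by
  rw [← PowerSeries.coeff_zero_eq_constantCoeff_apply, S24.coeff_taylorHom]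
  simp

theorem coeff_ofPowerSeries_neg (s : PowerSeries ℂ) {i : ℤ} (hi : i < 0) :
    (HahnSeries.ofPowerSeries ℤ ℂ s).coeff i = 0 := by
  have := PowerSeries.coeff_coe (R := ℂ) (f := s) i
  rw [if_pos hi] at this
  exact this

theorem order_ofPowerSeries_nonneg (s : PowerSeries ℂ) :
    0 ≤ (HahnSeries.ofPowerSeries ℤ ℂ s).order := by
  by_cases hs : HahnSeries.ofPowerSeries ℤ ℂ s = 0
  · rw [hs, HahnSeries.order_zero]
  · rw [HahnSeries.le_order_iff_forall hs]
    exact fun j hj => coeff_ofPowerSeries_neg s hj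

theorem order_ofPowerSeries_pos {s : PowerSeries ℂ} (hs : s ≠ 0)
    (h0 : PowerSeries.constantCoeff s = 0) : 0 < (HahnSeries.ofPowerSeries ℤ ℂ s).order := by
  have hs' : HahnSeries.ofPowerSeries ℤ ℂ s ≠ 0 := fun h =>
    hs (HahnSeries.ofPowerSeries_injective (by rw [h, map_zero]))
  have : (1 : ℤ) ≤ (HahnSeries.ofPowerSeries ℤ ℂ s).order := by
    rw [HahnSeries.le_order_iff_forall hs']
    intro j hj
    rcases lt_or_eq_of_le (Int.lt_add_one_iff.mp (by simpa using hj) : j ≤ 0) with h | h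
    · exact coeff_ofPowerSeries_neg s h
    · subst h
      have := HahnSeries.ofPowerSeries_apply_coeff (Γ := ℤ) s 0
      simp only [Nat.cast_zero] at this
      rw [this, PowerSeries.coeff_zero_eq_constantCoeff_apply, h0]
  omega

/-- **MOD-EV.**  The place attached to `τ`. -/
theorem exists_place (τ : ℍ) (a₀ : K) (ha₀ : S24.jfun τ = ι a₀) :
    ∃ x : Place K (FF K N),
      (∀ (f : FF K N) (h : Hol), evF ι N f = holMer h → 0 ≤ x.ord f) ∧
      (∀ (f : FF K N) (h : Hol) (c : K), evF ι N f = holMer h → (h : ℍ → ℂ) τ = ι c →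
        f ≠ algebraMap K (FF K N) c → 0 < x.ord (f - algebraMap K (FF K N) c)) ∧
      (∀ (f : FF K N) (h : Hol), evF ι N f = holMer h → (h : ℍ → ℂ) τ ≠ 0 → x.ord f = 0) := by
  -- vanishing
  have key : ∀ (f : FF K N) (h : Hol) (c : K), evF ι N f = holMer h → (h : ℍ → ℂ) τ = ι c →
      f ≠ algebraMap K (FF K N) c → 0 < (tayF ι N τ (f - algebraMap K (FF K N) c)).order := by
    intro f h c hf hc hne
    have h1 : evF ι N (f - algebraMap K (FF K N) c) = holMer (h - constHol (ι c)) := by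
      rw [map_sub, map_sub, hf, GR.A.evF_algebraMap]
      rfl
    rw [tayF_of_hol ι N τ h1]
    apply order_ofPowerSeries_pos
    · intro h0
      have h2 : tayF ι N τ (f - algebraMap K (FF K N) c) = 0 := by
        rw [tayF_of_hol ι N τ h1, h0, map_zero]
      exact hne (sub_eq_zero.mp ((map_eq_zero _).mp h2))
    · rw [constantCoeff_taylorHom]
      show (h : ℍ → ℂ) τ - ι c = 0
      rw [hc, sub_self]
  have hjne : GR.A.jF K N ≠ algebraMap K (FF K N) a₀ := by
    intro h
    have h1 := congrArg (evF ι N) h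
    rw [GR.A.evF_jF, GR.A.evF_algebraMap] at h1
    have h2 : jHol = constHol (ι a₀) := GR.A.holMer_injective h1
    obtain ⟨τ', hτ'⟩ := S24.exists_jfun_eq (ι a₀ + 1)
    have h3 : (jHol : ℍ → ℂ) τ' = (constHol (ι a₀) : ℍ → ℂ) τ' := by rw [h2]
    rw [S24.jHol_apply, hτ', S24.constHol_apply] at h3
    exact one_ne_zero (add_eq_left.mp h3)
  have hj := key (GR.A.jF K N) jHol a₀ (GR.A.evF_jF ι N) ha₀ hjne
  obtain ⟨x, k, hk, hx⟩ := exists_place_mul_ord ι (tayF ι N τ) (tayF_algebraMap ι N τ)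
    (GR.A.jF K N - algebraMap K (FF K N) a₀) hj.ne'
  have hkz : (0 : ℤ) < k := by exact_mod_cast hk
  refine ⟨x, fun f h hf => ?_, fun f h c hf hc hne => ?_, fun f h hf h0 => ?_⟩
  · have h1 := order_ofPowerSeries_nonneg (taylorHom τ h)
    rw [← tayF_of_hol ι N τ hf, hx] at h1
    exact nonneg_of_mul_nonneg_right h1 hkz
  · have h1 := key f h c hf hc hne
    rw [hx] at h1
    exact (mul_pos_iff_of_pos_left hkz).mp h1
  · have h1 : (tayF ι N τ f).order = 0 := by
      rw [tayF_of_hol ι N τ hf]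
      have hc0 : (HahnSeries.ofPowerSeries ℤ ℂ (taylorHom τ h)).coeff 0 ≠ 0 := by
        have := HahnSeries.ofPowerSeries_apply_coeff (Γ := ℤ) (taylorHom τ h) 0
        simp only [Nat.cast_zero] at this
        rw [this, PowerSeries.coeff_zero_eq_constantCoeff_apply, constantCoeff_taylorHom]
        exact h0
      exact le_antisymm (HahnSeries.order_le_of_coeff_ne_zero hc0)
        (order_ofPowerSeries_nonneg _)
    rw [hx] at h1
    rcases mul_eq_zero.mp h1 with h | h
    · omega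
    · exact h

end

end Fermat.Agent.S15.Mod.Ev
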